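import Fermat.Agent.CFT.PT.Arith.Basic

/-!
# Local `p`-th roots come from global fields

If `y ^ p` lies in the completion of `L` then `y` lies in the completion of a larger number field.
-/

set_option autoImplicit false

noncomputable section

namespace Fermat.Agent.CFT.PT

open Fermat.Agent.Arith IntermediateField Fermat.Agent.CFT.Local

variable {p : ℕ} [Fact p.Prime] {q : ℕ} [Fact q.Prime]

/-- The `p`-th powers form a neighbourhood of one. -/
theorem exists_pow_eq_near_one (hp2 : p ≠ 2) (E : IntermediateField ℚ_[q] (PadicAlgCl q))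
    [FiniteDimensional ℚ_[q] E] :
    ∃ ε > (0 : ℝ), ∀ x : E, ‖x - 1‖ < ε → ∃ w : E, w ^ p = x := by
  obtain ⟨c, hc⟩ := exists_goodBasis_smul (Module.finBasis ℚ_[q] E)
  set b := (Module.finBasis ℚ_[q] E).unitsSMul fun _ => c
  obtain ⟨ε, hε, hball⟩ := Metric.mem_nhds_iff.mp (lat_mem_nhds_zero (b := b) (powShift q p))
  refine ⟨min ε 1, lt_min hε one_pos, fun x hx => ?_⟩
  have hx0 : x ≠ 0 := fun h => by
    rw [h, zero_sub, norm_neg, norm_one] at hx
    exact absurd (hx.trans_le (min_le_right _ _)) (lt_irrefl 1)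
  have hmem : Units.mk0 x hx0 ∈ deepUnits hc (powShift q p) := by
    rw [mem_deepUnits, Units.val_mk0]
    exact hball (mem_ball_zero_iff.mpr (hx.trans_le (min_le_left _ _)))
  rw [← hc.map_pow_deepUnits hp2] at hmem
  obtain ⟨w, -, hw⟩ := hmem
  refine ⟨w, ?_⟩
  have := congrArg Units.val hw
  simpa using this

/-- A local `p`-th root lies in the completion of a number field. -/
theorem exists_mem_localField_of_pow_mem (hp2 : p ≠ 2) (L : IntermediateField ℚ QBar)
    [FiniteDimensional ℚ L] {y : PadicAlgCl q} (hy : y ≠ 0)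
    (hyp : y ^ p ∈ localField q L) :
    ∃ L' : IntermediateField ℚ QBar, FiniteDimensional ℚ L' ∧ Normal ℚ L' ∧ L ≤ L' ∧
      y ∈ localField q L' := by
  -- Approximate `y ^ p` by a global `x` so closely that their ratio is a `p`-th power of some `w`.
  obtain ⟨ε, hε, hroot⟩ := exists_pow_eq_near_one hp2 (localField q L)
  set a : localField q L := ⟨y ^ p, hyp⟩
  have ha : a ≠ 0 := fun h => pow_ne_zero p hy (congrArg Subtype.val h)
  have hapos : 0 < ‖a‖ := norm_pos_iff.mpr ha
  obtain ⟨x, hx⟩ := localEmb_dense q L a (lt_min hapos (mul_pos hε hapos))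
  set ix := localEmb q L x with hix
  have hnx : ‖ix‖ = ‖a‖ := by
    have h1 : ‖ix - a‖ < ‖a‖ := by
      rw [norm_sub_rev]; exact hx.trans_le (min_le_left _ _)
    have := IsUltrametricDist.norm_add_eq_max_of_norm_ne_norm h1.ne
    rw [sub_add_cancel, max_eq_right h1.le] at this
    exact this
  have hix0 : ix ≠ 0 := fun h => hapos.ne' (by rw [← hnx, h, norm_zero])
  obtain ⟨w, hw⟩ := hroot (a / ix) (by
    rw [div_sub_one hix0, norm_div, hnx, div_lt_iff₀ hapos]
    exact hx.trans_le (min_le_right _ _))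
  have hppos := (Fact.out : p.Prime).pos
  -- Adjoin a `p`-th root `z` of `x` and the `p`-th roots of unity.
  obtain ⟨z, hz⟩ := IsAlgClosed.exists_pow_nat_eq (x : QBar) hppos
  have : NeZero p := ⟨hppos.ne'⟩
  have : NeZero (p : QBar) := ⟨Nat.cast_ne_zero.mpr hppos.ne'⟩
  obtain ⟨ζ, hζ⟩ := HasEnoughRootsOfUnity.exists_primitiveRoot QBar p
  set F := L ⊔ IntermediateField.adjoin ℚ ({z, ζ} : Set QBar)
  have : FiniteDimensional ℚ (IntermediateField.adjoin ℚ ({z, ζ} : Set QBar)) :=
    IntermediateField.finiteDimensional_adjoin fun e _ => Algebra.IsIntegral.isIntegral e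
  have : FiniteDimensional ℚ F := IntermediateField.finiteDimensional_sup _ _
  set L' := IntermediateField.normalClosure ℚ F QBar
  have : Normal ℚ L' := normal_normalClosure F
  have hle : L ≤ L' := le_sup_left.trans F.le_normalClosure
  have hsub : ∀ e ∈ ({z, ζ} : Set QBar), e ∈ L' := fun e he =>
    F.le_normalClosure (le_sup_right (a := L) (IntermediateField.subset_adjoin _ _ he))
  have hzp : padicEmbedding q z ^ p = (ix : PadicAlgCl q) := by
    rw [← map_pow, hz, hix, coe_localEmb]
  have hix0' : (ix : PadicAlgCl q) ≠ 0 := fun h => hix0 (Subtype.ext h)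
  have hdiv0 : (w : PadicAlgCl q) * padicEmbedding q z ≠ 0 := by
    intro h
    have h2 : ((w : PadicAlgCl q) * padicEmbedding q z) ^ p = 0 := by
      rw [h, zero_pow hppos.ne']
    have hwp : (w : PadicAlgCl q) ^ p = y ^ p / (ix : PadicAlgCl q) := congrArg Subtype.val hw
    rw [mul_pow, hzp, hwp, div_mul_cancel₀ _ hix0'] at h2
    exact pow_ne_zero p hy h2
  -- Then `y / (w z)` is a `p`-th root of unity, hence in the completion of the enlarged field.
  have hroots : (y / ((w : PadicAlgCl q) * padicEmbedding q z)) ^ p = 1 := by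
    have hwp : (w : PadicAlgCl q) ^ p = y ^ p / (ix : PadicAlgCl q) := congrArg Subtype.val hw
    rw [div_pow, mul_pow, hzp, hwp, div_mul_cancel₀ _ hix0', div_self (pow_ne_zero p hy)]
  obtain ⟨i, -, hi⟩ :=
    (hζ.map_of_injective (padicEmbedding q).toRingHom.injective).eq_pow_of_pow_eq_one
    hroots
  refine ⟨L', inferInstance, inferInstance, hle, ?_⟩
  rw [eq_div_iff hdiv0] at hi
  rw [← hi]
  exact mul_mem (pow_mem (padicEmbedding_mem_localField q L' ⟨ζ, hsub ζ (by simp)⟩) i)
    (mul_mem (localField_mono q hle w.2)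
      (padicEmbedding_mem_localField q L' ⟨z, hsub z (by simp)⟩))

end Fermat.Agent.CFT.PT
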