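import Fermat.Agent.Arith.RootsOfUnity
import Fermat.Agent.CFT.Idele.ClassFinite
import Fermat.Agent.CFT.Idele.Incl
import Fermat.Agent.CFT.PT.Arith.Basic

/-!
# Roots of elements with divisible values, and capitulation

An element whose values off `S` are `p ^ k`-th powers of powers of `q` has `p ^ k`-th roots in
fields unramified outside `S`; hence every idele becomes principal modulo `p` off `S` in such a
field.
-/

set_option autoImplicit false

noncomputable section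

namespace Fermat.Agent.CFT.PT

open ExtCitation Fermat.Agent.Arith IntermediateField Fermat.Agent.CFT.Local Fermat.Agent.CFT.Idele
open scoped Pointwise

/-- The local norm of `q` is `1 / q`. -/
theorem norm_padicEmbedding_natCast_self (q : ℕ) [Fact q.Prime] :
    ‖padicEmbedding q (q : QBar)‖ = (q : ℝ)⁻¹ := by
  rw [map_natCast, ← map_natCast (algebraMap ℚ_[q] (PadicAlgCl q)) q, norm_algebraMap',
    Padic.norm_p]

/-- Inertia fixes a root of order prime to `q` of a fixed element with value a power of `q`. -/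
theorem inertia_fix_root {q : ℕ} [Fact q.Prime] {g : GQ}
    (hg : g ∈ (padicPlace q).inertiaSubgroupIn ℚ) {m : ℕ} (hm : ¬ q ∣ m) {y : QBar}
    (hfix : g (y ^ m) = y ^ m) {n : ℤ} (hy : ‖padicEmbedding q y‖ = (q : ℝ) ^ n) : g y = y := by
  have hq0 : (0 : ℝ) < q := Nat.cast_pos.mpr (Fact.out : q.Prime).pos
  have hy0 : y ≠ 0 := fun h => by
    rw [h, map_zero, norm_zero] at hy
    exact (zpow_pos hq0 n).ne' hy.symm
  have hqQ : (q : QBar) ^ n ≠ 0 :=
    zpow_ne_zero _ (Nat.cast_ne_zero.mpr (Fact.out : q.Prime).ne_zero)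
  set β := y * (q : QBar) ^ n with hβ
  have hnb : ‖padicEmbedding q β‖ = 1 := by
    rw [hβ, map_mul, map_zpow₀, norm_mul, norm_zpow, norm_padicEmbedding_natCast_self, hy,
      inv_zpow, mul_inv_cancel₀ (zpow_pos hq0 n).ne']
  have hβ0 : β ≠ 0 := mul_ne_zero hy0 hqQ
  have hβA : β ∈ padicPlace q := (mem_padicPlace_iff_norm q).mpr hnb.le
  have hβi : β⁻¹ ∈ padicPlace q := (mem_padicPlace_iff_norm q).mpr (by
    rw [map_inv₀, norm_inv, hnb, inv_one])
  have h2 : g β / β = g y / y := by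
    rw [hβ, map_mul, map_zpow₀, map_natCast, mul_div_mul_right _ _ hqQ]
  have h1 : g β / β - 1 ∈ (padicPlace q).nonunits := by
    have h := nonunits_mul_right ((mem_inertia_iff_forall_mem.mp hg).2 β hβA) hβi
    rwa [sub_mul, mul_inv_cancel₀ hβ0, ← div_eq_mul_inv] at h
  rw [h2] at h1
  have h3 : (g y / y) ^ m = 1 := by
    rw [div_pow, ← map_pow, hfix, div_self (pow_ne_zero m hy0)]
  have h4 := root_eq_one_of_sub_one_mem_nonunits (padicPlace_liesOverPrime q) Fact.out h3 hm h1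
  exact (div_eq_one_iff_eq hy0).mp h4

variable {L : IntermediateField ℚ QBar} [FiniteDimensional ℚ L] [Normal ℚ L]

omit [FiniteDimensional ℚ L] in
/-- The norm of an embedded conjugate is the norm at the translated place. -/
theorem norm_localEmb_res (q : ℕ) [Fact q.Prime] (g : GQ) (x : L) :
    ‖localEmb q L (res L g x)‖ = ‖padicEmbedding q (g (x : QBar))‖ := by
  rw [norm_localEmb, res_apply]

/-- A root of an element with divisible values off `S` generates a field unramified outside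
`S`. -/
theorem exists_ur_root {p : ℕ} [Fact p.Prime] {S : Finset Nat.Primes} (hpS : pPrime p ∈ S)
    (hL : L.IsUnramifiedOutside S) (x : Lˣ) (k : ℕ)
    (hx : ∀ q : Nat.Primes, q ∉ S → ∀ σ : L ≃ₐ[ℚ] L,
      ∃ n : ℤ, ‖localEmb (q : ℕ) L (σ (x : L))‖ = (q : ℝ) ^ (((p : ℤ) ^ k) * n))
    (y : QBar) (hy : y ^ (p ^ k) = ((x : L) : QBar)) :
    ∃ L2 : IntermediateField ℚ QBar, FiniteDimensional ℚ L2 ∧ Normal ℚ L2 ∧
      L2.IsUnramifiedOutside S ∧ L ≤ L2 ∧ y ∈ L2 := by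
  set F := L ⊔ IntermediateField.adjoin ℚ {y} with hF
  have hpk : p ^ k ≠ 0 := pow_ne_zero k (Fact.out : p.Prime).ne_zero
  have : FiniteDimensional ℚ (IntermediateField.adjoin ℚ ({y} : Set QBar)) :=
    IntermediateField.adjoin.finiteDimensional (Algebra.IsIntegral.isIntegral y)
  have hFur : F.IsUnramifiedOutside S := by
    refine ⟨IntermediateField.finiteDimensional_sup _ _, fun q hq =>
      InertiaFixes.sup (inertiaFixes_of_ur hL hq) (inertiaFixes_adjoin ?_)⟩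
    rintro z rfl A hA g hg
    obtain ⟨h, rfl⟩ := exists_smul_eq (padicPlace_liesOverPrime (q : ℕ)) hA q.2
    have h1 : h⁻¹ * g * h ∈ (padicPlace (q : ℕ)).inertiaSubgroupIn ℚ := by
      have := (mem_inertia_smul_iff (g := h⁻¹) (σ := g) (A := h • padicPlace (q : ℕ))).mpr hg
      rwa [inv_inv, inv_smul_smul] at this
    have hqm : ¬ (q : ℕ) ∣ p ^ k := fun hdvd =>
      hq (by rwa [show q = pPrime p from Subtype.ext
        ((Nat.prime_dvd_prime_iff_eq q.2 Fact.out).mp (q.2.dvd_of_dvd_pow hdvd))])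
    obtain ⟨n, hn⟩ := hx q hq (res L h⁻¹)
    have hyn : ‖padicEmbedding (q : ℕ) (h⁻¹ z)‖ = (q : ℝ) ^ n := by
      rw [norm_localEmb_res, ← hy, map_pow, map_pow, norm_pow] at hn
      refine (pow_left_inj₀ (norm_nonneg _) (zpow_nonneg (Nat.cast_nonneg _) _) hpk).mp ?_
      rw [hn, ← zpow_natCast ((q : ℝ) ^ n), ← zpow_mul, mul_comm n]
      push_cast
      rfl
    have hfix : (h⁻¹ * g * h) ((h⁻¹ z) ^ (p ^ k)) = (h⁻¹ z) ^ (p ^ k) := by
      rw [← map_pow h⁻¹, hy]
      have := (IntermediateField.mem_fixingSubgroup_iff _ _).mp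
        (inertiaFixes_of_ur hL hq _ (padicPlace_liesOverPrime (q : ℕ)) h1) (h⁻¹ ((x : L) : QBar))
        (by rw [← res_apply L h⁻¹]; exact SetLike.coe_mem _)
      exact this
    have h2 := congrArg h (inertia_fix_root h1 hqm hfix hyn)
    calc g z = (h * (h⁻¹ * g * h) * h⁻¹) z := by congr 1; group
      _ = h (h⁻¹ z) := h2
      _ = z := h.apply_symm_apply z
  obtain ⟨L2, h1, h2, h3, h4⟩ := exists_normal_ur_ge hFur
  exact ⟨L2, h1, h2, h3, le_sup_left.trans h4,
    h4 (le_sup_right (a := L) (IntermediateField.subset_adjoin _ _ rfl))⟩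

omit [FiniteDimensional ℚ L] in
theorem norm_val_inclIdl {L2 : IntermediateField ℚ QBar} [Normal ℚ L2] (h : L ≤ L2) (f : idl L)
    (q : Nat.Primes) (g : GQ) :
    ‖((val (inclIdl h f) q (res L2 g) : (E L2 q)ˣ) : E L2 q)‖ =
      ‖((val f q (res L g) : (E L q)ˣ) : E L q)‖ := by
  rw [norm_val _ q rfl, norm_val _ q rfl, coe_inclIdl]

/-- Capitulation: in some field `L₂ ⊇ L` unramified outside `S`, a given idele of `L` is a principal
idele times values of absolute value a power of `q ^ p` at each `q ∉ S`. -/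
theorem exists_capitulation {p : ℕ} [Fact p.Prime] {S : Finset Nat.Primes} (hpS : pPrime p ∈ S)
    (hL : L.IsUnramifiedOutside S) (f : idl L) :
    ∃ (L2 : IntermediateField ℚ QBar) (_ : FiniteDimensional ℚ L2) (_ : Normal ℚ L2) (h : L ≤ L2)
      (α : L2ˣ), L2.IsUnramifiedOutside S ∧ ∀ q : Nat.Primes, q ∉ S → ∀ σ : L2 ≃ₐ[ℚ] L2,
        ∃ n : ℤ, ‖((val (inclIdl h f) q σ : (E L2 q)ˣ) : E L2 q)‖ /
          ‖localEmb (q : ℕ) L2 (σ (α : L2))‖ = (q : ℝ) ^ ((p : ℤ) * n) := by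
  have := finite_classes_mod_units (L := L)
  set V := unitIdl L ⊔ (prinL L).range with hV
  have hh0 : Nat.card (idl L ⧸ V) ≠ 0 := Nat.card_pos.ne'
  -- Write the class number as `p ^ k * m` with `m` prime to `p`; this power of `f` is a unit idele
  -- times a principal `a`.
  obtain ⟨k, m, hm, hkm⟩ := Nat.exists_eq_pow_mul_and_not_dvd hh0 p (Fact.out : p.Prime).ne_one
  have hfh : f ^ Nat.card (idl L ⧸ V) ∈ V := by
    rw [← QuotientGroup.eq_one_iff, QuotientGroup.mk_pow]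
    exact pow_card_eq_one'
  obtain ⟨u, hu, _, ⟨a, rfl⟩, hua⟩ := Subgroup.mem_sup.mp hfh
  have hnorm : ∀ q : Nat.Primes, ∀ σ : L ≃ₐ[ℚ] L,
      ‖((val f q σ : (E L q)ˣ) : E L q)‖ ^ (p ^ k * m) =
        ‖localEmb (q : ℕ) L (σ (a : L))‖ := fun q σ => by
    rw [← hkm, ← norm_pow, ← Units.val_pow_eq_pow_val,
      show val f q σ ^ Nat.card (idl L ⧸ V) = val (f ^ Nat.card (idl L ⧸ V)) q σ from
        (map_pow (valHom q σ) f _).symm, ← hua, val_mul, Units.val_mul, norm_mul,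
      (mem_unitGroup _).mp (hu q σ), one_mul, norm_val_prinL]
    rfl
  have hval : ∀ q : Nat.Primes, q ∉ S → ∀ σ : L ≃ₐ[ℚ] L,
      ∃ n : ℤ, ‖((val f q σ : (E L q)ˣ) : E L q)‖ = (q : ℝ) ^ n := fun q hq σ =>
    exists_norm_eq_zpow_of_ur L hL hq _
  -- Off `S` the orders of `a` are divisible by `p ^ k`, so its `p ^ k`-th root `y` is unramified.
  have hdiv : ∀ q : Nat.Primes, q ∉ S → ∀ σ : L ≃ₐ[ℚ] L,
      ∃ n : ℤ, ‖localEmb (q : ℕ) L (σ (a : L))‖ = (q : ℝ) ^ (((p : ℤ) ^ k) * n) := fun q hq σ => by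
    obtain ⟨n, hn⟩ := hval q hq σ
    refine ⟨n * m, ?_⟩
    rw [← hnorm, hn, ← zpow_natCast, ← zpow_mul]
    congr 1
    push_cast
    ring
  obtain ⟨y, hy⟩ := IsAlgClosed.exists_pow_nat_eq ((a : L) : QBar)
    (pow_pos (Fact.out : p.Prime).pos k)
  obtain ⟨L2, h1, h2, h3, hle, hyL⟩ := exists_ur_root hpS hL a k hdiv y hy
  have hy0 : y ≠ 0 := fun h0 => by
    rw [h0, zero_pow (pow_ne_zero k (Fact.out : p.Prime).ne_zero)] at hy
    exact a.ne_zero (Subtype.ext hy.symm)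
  have hy' : (⟨y, hyL⟩ : L2) ≠ 0 := fun h0 => hy0 (congrArg Subtype.val h0)
  -- For `m' m ≡ 1` mod `p`, the orders of `f / y ^ m'` off `S` are divisible by `p`.
  obtain ⟨m', hm'⟩ : ∃ m' : ℕ, (m' : ZMod p) * (m : ZMod p) = 1 :=
    ⟨((m : ZMod p)⁻¹).val, by
      rw [ZMod.natCast_zmod_val, inv_mul_cancel₀]
      exact fun h0 => hm ((ZMod.natCast_eq_zero_iff m p).mp h0)⟩
  obtain ⟨c, hc⟩ : (p : ℤ) ∣ 1 - (m : ℤ) * m' :=
    (ZMod.intCast_zmod_eq_zero_iff_dvd _ p).mp (by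
      push_cast
      rw [mul_comm, hm', sub_self])
  refine ⟨L2, h1, h2, hle, Units.mk0 _ hy' ^ m', h3, fun q hq σ => ?_⟩
  obtain ⟨g, rfl⟩ := AlgEquiv.restrictNormalHom_surjective (K₁ := L2) QBar σ
  obtain ⟨n, hn⟩ := hval q hq (res L g)
  refine ⟨n * c, ?_⟩
  have hyn : ‖localEmb (q : ℕ) L2 (res L2 g ⟨y, hyL⟩)‖ = (q : ℝ) ^ ((m : ℤ) * n) := by
    refine (pow_left_inj₀ (norm_nonneg _) (zpow_nonneg (Nat.cast_nonneg _) _)
      (pow_ne_zero k (Fact.out : p.Prime).ne_zero)).mp ?_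
    rw [norm_localEmb_res, ← norm_pow, ← map_pow, ← map_pow, hy, ← norm_localEmb_res,
      ← hnorm, hn, ← zpow_natCast, ← zpow_natCast ((q : ℝ) ^ ((m : ℤ) * n)), ← zpow_mul,
      ← zpow_mul]
    congr 1
    push_cast
    ring
  rw [norm_val_inclIdl, hn, Units.val_pow_eq_pow_val, Units.val_mk0, map_pow, map_pow, norm_pow,
    hyn, ← zpow_natCast, ← zpow_mul, ← zpow_sub₀ (Nat.cast_ne_zero.mpr q.2.ne_zero)]
  congr 1
  linear_combination n * hc

end Fermat.Agent.CFT.PT
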